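/-
Case II of Fermat's Last Theorem for a prime exponent `p` such that `ℤ[ζ_p]` is a PID and
Kummer's lemma holds.  The descent is carried out in an abstract principal ideal domain.
-/
import Mathlib

set_option autoImplicit false

namespace Fermat.Agent.S11

open Polynomial Finset

section Abstract

variable {R : Type*} [CommRing R] [IsDomain R] {p : ℕ} {ζ : R}

/-- `(ζ - 1) ^ (p - 1)` is associated to `p`. -/
theorem associated_lam_pow_prime (hp : p.Prime) (hζ : IsPrimitiveRoot ζ p) :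
    Associated ((ζ - 1) ^ (p - 1)) (p : R) := by
  have : Fact p.Prime := ⟨hp⟩
  have : NeZero p := ⟨hp.ne_zero⟩
  rw [← eval_one_cyclotomic_prime (R := R) (p := p),
    cyclotomic_eq_prod_X_sub_primitiveRoots hζ, eval_prod]
  simp only [eval_sub, eval_X, eval_C]
  rw [← Nat.totient_prime hp, ← hζ.card_primitiveRoots, ← Finset.prod_const]
  refine Associated.prod _ _ _ fun η hη ↦ ?_
  have hη' : IsPrimitiveRoot η p := isPrimitiveRoot_of_mem_primitiveRoots hη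
  obtain ⟨i, -, hi, rfl⟩ := hζ.isPrimitiveRoot_iff.mp hη'
  simpa using (hζ.associated_sub_one_pow_sub_one_of_coprime hi).neg_right

theorem prime_dvd_lam_pow (hp : p.Prime) (hζ : IsPrimitiveRoot ζ p) :
    (p : R) ∣ (ζ - 1) ^ p := by
  refine (associated_lam_pow_prime hp hζ).symm.dvd.trans (pow_dvd_pow _ (Nat.sub_le _ _))

theorem lam_dvd_prime (hp : p.Prime) (hζ : IsPrimitiveRoot ζ p) : (ζ - 1) ∣ (p : R) :=
  hζ.sub_one_dvd_natCast hp.one_lt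

theorem one_mem_roots (hp : p.Prime) : (1 : R) ∈ nthRootsFinset p (1 : R) := by
  rw [mem_nthRootsFinset hp.pos]; simp

theorem pow_mem_roots (hp : p.Prime) (hζ : IsPrimitiveRoot ζ p) (i : ℕ) :
    ζ ^ i ∈ nthRootsFinset p (1 : R) := by
  rw [mem_nthRootsFinset hp.pos, ← pow_mul, mul_comm, pow_mul, hζ.pow_eq_one, one_pow]

/-- If `x ≡ n mod λ` then `x ^ p ≡ n ^ p mod λ ^ p`. -/
theorem lam_pow_dvd_pow_sub_pow (hp : p.Prime) (hζ : IsPrimitiveRoot ζ p) {x n : R}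
    (h : (ζ - 1) ∣ x - n) : (ζ - 1) ^ p ∣ x ^ p - n ^ p := by
  rw [hζ.pow_sub_pow_eq_prod_sub_mul x n hp.pos]
  conv_lhs => rw [← hζ.card_nthRootsFinset, ← Finset.prod_const]
  refine Finset.prod_dvd_prod_of_dvd _ _ fun η hη ↦ ?_
  have h1 : (ζ - 1) ∣ 1 - η := hζ.sub_one_dvd_sub hp (one_mem_roots hp) hη
  have : x - η * n = (x - n) + (1 - η) * n := by ring
  rw [this]
  exact dvd_add h (h1.mul_right _)

/-- An integer divisible by `λ` is divisible by `p`. -/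
theorem prime_dvd_of_lam_dvd_intCast (hp : p.Prime) (hl : Prime (ζ - 1)) {n : ℤ}
    (h : (ζ - 1) ∣ (n : R)) (hlp : (ζ - 1) ∣ (p : R)) : (p : ℤ) ∣ n := by
  by_contra hn
  have hcop : IsCoprime (p : ℤ) n :=
    (Nat.prime_iff_prime_int.mp hp).coprime_iff_not_dvd.mpr hn
  obtain ⟨s, t, hst⟩ := hcop
  have h1 : ((s : R) * (p : R) + (t : R) * (n : R)) = 1 := by exact_mod_cast congrArg (Int.cast : ℤ → R) hst
  apply hl.not_isUnit
  apply isUnit_of_dvd_one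
  have h2 : (ζ - 1) ∣ ((s : R) * (p : R) + (t : R) * (n : R)) :=
    dvd_add (hlp.mul_left _) (h.mul_left _)
  rwa [h1] at h2

/-- The congruence needed to apply Kummer's lemma. -/
theorem exists_int_prime_dvd_sub (hp : p.Prime) (hζ : IsPrimitiveRoot ζ p)
    (hres : ∀ x : R, ∃ n : ℤ, (ζ - 1) ∣ x - n)
    {a b c η e : R} (hb : ¬ (ζ - 1) ∣ b) (hc : (ζ - 1) ∣ c)
    (h : a ^ p + η * b ^ p = e * c ^ p) : ∃ n : ℤ, (p : R) ∣ η - n := by
  obtain ⟨n1, h1⟩ := hres a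
  obtain ⟨n2, h2⟩ := hres b
  have hp1 : (p : R) ∣ a ^ p - (n1 : R) ^ p :=
    (prime_dvd_lam_pow hp hζ).trans (lam_pow_dvd_pow_sub_pow hp hζ h1)
  have hp2 : (p : R) ∣ b ^ p - (n2 : R) ^ p :=
    (prime_dvd_lam_pow hp hζ).trans (lam_pow_dvd_pow_sub_pow hp hζ h2)
  have hp3 : (p : R) ∣ a ^ p + η * b ^ p := by
    rw [h]
    exact ((prime_dvd_lam_pow hp hζ).trans (pow_dvd_pow_of_dvd hc p)).mul_left e
  have hn2 : ¬ (p : ℤ) ∣ n2 := by
    intro hd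
    apply hb
    have h3 : (ζ - 1) ∣ (n2 : R) := by
      refine (lam_dvd_prime hp hζ).trans ?_
      exact_mod_cast (Int.cast_dvd_cast (α := R) _ _ hd)
    have := dvd_add h2 h3
    simpa using this
  have hcop : IsCoprime (n2 ^ p) (p : ℤ) :=
    ((Nat.prime_iff_prime_int.mp hp).coprime_iff_not_dvd.mpr hn2).symm.pow_left
  obtain ⟨s, t, hst⟩ := hcop
  have hst' : (s : R) * (n2 : R) ^ p + (t : R) * (p : R) = 1 := by
    exact_mod_cast congrArg (Int.cast : ℤ → R) hst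
  refine ⟨- s * n1 ^ p, ?_⟩
  obtain ⟨k1, hk1⟩ := hp1
  obtain ⟨k2, hk2⟩ := hp2
  obtain ⟨k3, hk3⟩ := hp3
  refine ⟨s * (k3 - k1 - η * k2) + η * t, ?_⟩
  push_cast
  linear_combination (-η) * hst' + (s : R) * hk3 - (s : R) * hk1 - (s : R) * η * hk2

/-- In a solution, `λ` does not divide `y`. -/
theorem not_lam_dvd_right (hp : p.Prime) (hl : Prime (ζ - 1)) {x y Z : R} {e : R}
    (hxy : IsCoprime x y) (hZ : (ζ - 1) ∣ Z) (h : x ^ p + y ^ p = e * Z ^ p) : ¬ (ζ - 1) ∣ y := by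
  intro hy
  have h1 : (ζ - 1) ∣ x ^ p := by
    have : x ^ p = e * Z ^ p - y ^ p := by rw [← h]; ring
    rw [this]
    exact dvd_sub ((dvd_pow hZ hp.ne_zero).mul_left _) (dvd_pow hy hp.ne_zero)
  exact hl.not_isUnit (hxy.isUnit_of_dvd' (hl.dvd_of_dvd_pow h1) hy)

variable [IsPrincipalIdealRing R]

/-- The descent step, for a solution normalised so that `λ ^ 2 ∣ x + y`. -/
theorem descent_step (hp : p.Prime) (hp2 : p ≠ 2) (hζ : IsPrimitiveRoot ζ p)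
    (hl : Prime (ζ - 1)) (hres : ∀ x : R, ∃ n : ℤ, (ζ - 1) ∣ x - n)
    (hK : ∀ (u : Rˣ) (n : ℤ), (p : R) ∣ (u : R) - n → ∃ v : Rˣ, u = v ^ p)
    {x y Z : R} {e : Rˣ} (hxy : IsCoprime x y) (hZ0 : Z ≠ 0) (hZ : (ζ - 1) ∣ Z)
    (h2 : (ζ - 1) ^ 2 ∣ x + y) (h : x ^ p + y ^ p = e * Z ^ p) :
    ∃ (x' y' Z' : R) (e' : Rˣ), IsCoprime x' y' ∧ Z' ≠ 0 ∧ (ζ - 1) ∣ Z' ∧ DvdNotUnit Z' Z ∧
      x' ^ p + y' ^ p = e' * Z' ^ p := by
  classical
  have hodd : Odd p := hp.odd_of_ne_two hp2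
  have hl0 : ζ - 1 ≠ 0 := hl.ne_zero
  have hy : ¬ (ζ - 1) ∣ y := not_lam_dvd_right hp hl hxy hZ h
  have hdvd : ∀ η ∈ nthRootsFinset p (1 : R), (ζ - 1) ∣ x + η * y := by
    intro η hη
    have h1 : (ζ - 1) ∣ η - 1 := hζ.sub_one_dvd_sub hp hη (one_mem_roots hp)
    have h3 : x + η * y = (x + y) + (η - 1) * y := by ring
    rw [h3]
    exact dvd_add ((dvd_pow_self _ two_ne_zero).trans h2) (h1.mul_right _)
  choose! f hf using hdvd
  obtain ⟨Z1, rfl⟩ := hZ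
  have hprod : ∏ η ∈ nthRootsFinset p (1 : R), f η = e * Z1 ^ p := by
    apply mul_left_cancel₀ (pow_ne_zero p hl0)
    calc (ζ - 1) ^ p * ∏ η ∈ nthRootsFinset p (1 : R), f η
        = ∏ η ∈ nthRootsFinset p (1 : R), ((ζ - 1) * f η) := by
          rw [Finset.prod_mul_distrib, Finset.prod_const, hζ.card_nthRootsFinset]
      _ = ∏ η ∈ nthRootsFinset p (1 : R), (x + η * y) :=
          Finset.prod_congr rfl (fun η hη => (hf η hη).symm)
      _ = x ^ p + y ^ p := (hζ.pow_add_pow_eq_prod_add_mul x y hodd).symm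
      _ = e * ((ζ - 1) * Z1) ^ p := h
      _ = (ζ - 1) ^ p * (e * Z1 ^ p) := by rw [mul_pow]; ring
  have hcop : ∀ η₁ ∈ nthRootsFinset p (1 : R), ∀ η₂ ∈ nthRootsFinset p (1 : R), η₁ ≠ η₂ →
      IsCoprime (f η₁) (f η₂) := by
    intro η₁ h₁ η₂ h₂ hne
    obtain ⟨u, hu⟩ := hζ.nthRootsFinset_pairwise_associated_sub_one_sub_of_prime hp h₁ h₂ hne
    have e1 : f η₁ - f η₂ = u * y := by
      apply mul_left_cancel₀ hl0
      linear_combination (-1 : R) * hf η₁ h₁ + hf η₂ h₂ - y * hu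
    have e2 : η₁ * f η₂ - η₂ * f η₁ = u * x := by
      apply mul_left_cancel₀ hl0
      linear_combination (-η₁) * hf η₂ h₂ + η₂ * hf η₁ h₁ - x * hu
    obtain ⟨s, t, hst⟩ := hxy
    refine ⟨(t - s * η₂) * (u⁻¹ : Rˣ), (s * η₁ - t) * (u⁻¹ : Rˣ), ?_⟩
    have hu1 : (u : R) * (u⁻¹ : Rˣ) = 1 := Units.mul_inv u
    linear_combination (t * (u⁻¹ : Rˣ)) * e1 + (s * (u⁻¹ : Rˣ)) * e2 + (s * x + t * y) * hu1 + hst
  have hpow : ∀ η ∈ nthRootsFinset p (1 : R), ∃ d, Associated (d ^ p) (f η) := by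
    intro η hη
    refine exists_associated_pow_of_associated_pow_mul (c := Z1)
      (b := ∏ η' ∈ (nthRootsFinset p (1 : R)).erase η, f η') ?_ ?_
    · exact IsCoprime.prod_right
        (fun η' hη' => hcop η hη η' (mem_of_mem_erase hη') (ne_of_mem_erase hη').symm)
    · rw [mul_prod_erase _ f hη, hprod]
      exact (associated_unit_mul_left _ _ e.isUnit).symm
  -- the three roots `1`, `ζ`, `ζ ^ 2`
  have m0 : (1 : R) ∈ nthRootsFinset p (1 : R) := one_mem_roots hp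
  have m1 : ζ ∈ nthRootsFinset p (1 : R) := by simpa using pow_mem_roots hp hζ 1
  have m2 : ζ ^ 2 ∈ nthRootsFinset p (1 : R) := pow_mem_roots hp hζ 2
  have hp3 : 2 < p := lt_of_le_of_ne hp.two_le (Ne.symm hp2)
  have hne12 : ζ ≠ ζ ^ 2 := by
    intro hh
    have := hζ.pow_inj (i := 1) (j := 2) (by omega) hp3 (by simpa using hh)
    omega
  have hne02 : ζ ^ 2 ≠ 1 := by
    intro hh
    have := hζ.pow_inj (i := 2) (j := 0) hp3 (by omega) (by simpa using hh)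
    omega
  have hrel : (1 + ζ) * f ζ - f (ζ ^ 2) = ζ * f 1 := by
    apply mul_left_cancel₀ hl0
    linear_combination (-(1 + ζ)) * hf ζ m1 + hf (ζ ^ 2) m2 + ζ * hf 1 m0
  obtain ⟨ρ0, ε0, h0⟩ := hpow 1 m0
  obtain ⟨ρ1, ε1, h1⟩ := hpow ζ m1
  obtain ⟨ρ2, ε2, h2'⟩ := hpow (ζ ^ 2) m2
  obtain ⟨w, hw⟩ : IsUnit (1 + ζ) := by
    have := hζ.geom_sum_isUnit hp.two_le (j := 2)
      ((Nat.coprime_primes Nat.prime_two hp).mpr (Ne.symm hp2))
    simpa [Finset.sum_range_succ] using this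
  obtain ⟨z, hz⟩ : IsUnit ζ := hζ.isUnit hp.ne_zero
  -- `λ ∣ ρ0`
  have hf1 : (ζ - 1) ∣ f 1 := by
    have h3 : (ζ - 1) * (ζ - 1) ∣ (ζ - 1) * f 1 := by
      rw [← hf 1 m0, one_mul, ← sq]; exact h2
    exact (mul_dvd_mul_iff_left hl0).mp h3
  have hρ0 : (ζ - 1) ∣ ρ0 := by
    apply hl.dvd_of_dvd_pow (n := p)
    exact hf1.trans (Associated.symm ⟨ε0, h0⟩).dvd
  -- `¬ λ ∣ ρ2`
  have hρ2 : ¬ (ζ - 1) ∣ ρ2 := by
    intro hd
    have h3 : (ζ - 1) ∣ f (ζ ^ 2) := (dvd_pow hd hp.ne_zero).trans (Associated.dvd ⟨ε2, h2'⟩)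
    obtain ⟨u, hu⟩ := hζ.nthRootsFinset_pairwise_associated_sub_one_sub_of_prime hp m2 m0 hne02
    have h4 : f (ζ ^ 2) - f 1 = u * y := by
      apply mul_left_cancel₀ hl0
      linear_combination (-1 : R) * hf (ζ ^ 2) m2 + hf 1 m0 - y * hu
    have h5 : (ζ - 1) ∣ u * y := h4 ▸ dvd_sub h3 hf1
    exact hy (Units.dvd_mul_left.mp h5)
  -- the new equation
  set A : Rˣ := w * ε1 with hA
  have hA1 : (1 + ζ) * (ε1 : R) * ((A⁻¹ : Rˣ) : R) = 1 := by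
    have : (A : R) * ((A⁻¹ : Rˣ) : R) = 1 := Units.mul_inv A
    rw [hA, Units.val_mul, hw] at this
    exact this
  have heq : ρ1 ^ p + ((-(ε2 * A⁻¹) : Rˣ) : R) * ρ2 ^ p = ((z * ε0 * A⁻¹ : Rˣ) : R) * ρ0 ^ p := by
    rw [← h0, ← h1, ← h2'] at hrel
    simp only [Units.val_neg, Units.val_mul, hz]
    linear_combination ((A⁻¹ : Rˣ) : R) * hrel - ρ1 ^ p * hA1
  obtain ⟨n, hn⟩ := exists_int_prime_dvd_sub hp hζ hres hρ2 hρ0 heq
  obtain ⟨v, hv⟩ := hK _ n hn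
  have hZ1 : Z1 ≠ 0 := right_ne_zero_of_mul hZ0
  have hρ0Z : ρ0 ∣ Z1 := by
    rw [← UniqueFactorizationMonoid.pow_dvd_pow_iff_dvd hp.ne_zero]
    have h3 : ρ0 ^ p ∣ (e : R) * Z1 ^ p := by
      rw [← hprod]
      exact (Associated.dvd ⟨ε0, h0⟩).trans (Finset.dvd_prod_of_mem f m0)
    exact Units.dvd_mul_left.mp h3
  have hρ00 : ρ0 ≠ 0 := by
    rintro rfl
    exact hZ1 (zero_dvd_iff.mp hρ0Z)
  refine ⟨ρ1, v * ρ2, ρ0, z * ε0 * A⁻¹, ?_, hρ00, hρ0, ?_, ?_⟩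
  · have h3 : IsCoprime (f ζ) (f (ζ ^ 2)) := hcop ζ m1 (ζ ^ 2) m2 hne12
    rw [← h1, ← h2', isCoprime_mul_unit_right_left ε1.isUnit,
      isCoprime_mul_unit_right_right ε2.isUnit, IsCoprime.pow_iff hp.pos hp.pos] at h3
    exact (isCoprime_mul_unit_left_right v.isUnit _ _).mpr h3
  · obtain ⟨k, rfl⟩ := hρ0Z
    refine ⟨hρ00, (ζ - 1) * k, ?_, by ring⟩
    intro hu
    exact hl.not_isUnit (isUnit_of_mul_isUnit_left hu)
  · rw [mul_pow, ← Units.val_pow_eq_pow_val, ← hv]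
    exact heq

omit [IsPrincipalIdealRing R] in
/-- Some factor `x + η y` is divisible by `λ ^ 2`. -/
theorem exists_root_sq_dvd (hp : p.Prime) (hp2 : p ≠ 2) (hζ : IsPrimitiveRoot ζ p)
    (hl : Prime (ζ - 1)) (hres : ∀ x : R, ∃ n : ℤ, (ζ - 1) ∣ x - n)
    {x y Z : R} {e : R} (hxy : IsCoprime x y) (hZ : (ζ - 1) ∣ Z)
    (h : x ^ p + y ^ p = e * Z ^ p) :
    ∃ η ∈ nthRootsFinset p (1 : R), (ζ - 1) ^ 2 ∣ x + η * y := by
  have hodd : Odd p := hp.odd_of_ne_two hp2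
  have hy : ¬ (ζ - 1) ∣ y := not_lam_dvd_right hp hl hxy hZ h
  -- `λ ∣ x + y`
  have h1 : (ζ - 1) ∣ x + y := by
    have h3 : (ζ - 1) ∣ ∏ η ∈ nthRootsFinset p (1 : R), (x + η * y) := by
      rw [← hζ.pow_add_pow_eq_prod_add_mul x y hodd, h]
      exact (dvd_pow hZ hp.ne_zero).mul_left _
    obtain ⟨η, hη, h4⟩ := hl.exists_mem_finset_dvd h3
    have h5 : (ζ - 1) ∣ 1 - η := hζ.sub_one_dvd_sub hp (one_mem_roots hp) hη
    have h6 : x + y = (x + η * y) + (1 - η) * y := by ring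
    rw [h6]
    exact dvd_add h4 (h5.mul_right _)
  obtain ⟨t, ht⟩ := h1
  obtain ⟨nt, hnt⟩ := hres t
  obtain ⟨ny, hny⟩ := hres y
  have hlp : (ζ - 1) ∣ (p : R) := lam_dvd_prime hp hζ
  have hny' : ¬ (p : ℤ) ∣ ny := by
    intro hd
    apply hy
    have h3 : (ζ - 1) ∣ (ny : R) := by
      refine hlp.trans ?_
      exact_mod_cast (Int.cast_dvd_cast (α := R) _ _ hd)
    simpa using dvd_add hny h3
  -- choose `i` with `p ∣ nt + i * ny`
  obtain ⟨i, hi⟩ : ∃ i : ℕ, (p : ℤ) ∣ nt + i * ny := by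
    have hcop : IsCoprime ny (p : ℤ) :=
      ((Nat.prime_iff_prime_int.mp hp).coprime_iff_not_dvd.mpr hny').symm
    obtain ⟨s, r, hsr⟩ := hcop
    -- `s * ny ≡ 1`, take `i ≡ - nt * s`
    refine ⟨((- nt * s) % p).toNat, ?_⟩
    have hpos : (0 : ℤ) ≤ (- nt * s) % p := Int.emod_nonneg _ (by exact_mod_cast hp.ne_zero)
    rw [Int.toNat_of_nonneg hpos]
    have h3 : (p : ℤ) ∣ (- nt * s) % p - (- nt * s) := by
      have := Int.emod_add_mul_ediv (- nt * s) p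
      exact ⟨- ((- nt * s) / p), by linear_combination this⟩
    obtain ⟨k, hk⟩ := h3
    exact ⟨k * ny + nt * r, by linear_combination ny * hk - nt * hsr⟩
  refine ⟨ζ ^ i, pow_mem_roots hp hζ i, ?_⟩
  have hgeom : (ζ - 1) * ∑ j ∈ range i, ζ ^ j = ζ ^ i - 1 := mul_geom_sum ζ i
  have hsum : (ζ - 1) ∣ (∑ j ∈ range i, ζ ^ j) - (i : R) := by
    have : (∑ j ∈ range i, ζ ^ j) - (i : R) = ∑ j ∈ range i, (ζ ^ j - 1) := by
      rw [Finset.sum_sub_distrib]; simp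
    rw [this]
    refine Finset.dvd_sum fun j _ => ?_
    simpa using sub_dvd_pow_sub_pow ζ 1 j
  have h7 : x + ζ ^ i * y = (ζ - 1) * (t + (∑ j ∈ range i, ζ ^ j) * y) := by
    linear_combination ht - y * hgeom
  rw [h7, sq]
  refine mul_dvd_mul_left _ ?_
  have h8 : (ζ - 1) ∣ ((nt + i * ny : ℤ) : R) := by
    refine hlp.trans ?_
    exact_mod_cast (Int.cast_dvd_cast (α := R) _ _ hi)
  obtain ⟨k1, hk1⟩ := hnt
  obtain ⟨k2, hk2⟩ := hny
  obtain ⟨k3, hk3⟩ := hsum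
  obtain ⟨k4, hk4⟩ := h8
  push_cast at hk4
  refine ⟨k1 + k3 * y + i * k2 + k4, ?_⟩
  linear_combination hk1 + y * hk3 + (i : R) * hk2 + hk4

/-- The generalised Fermat equation has no solution with `λ ∣ Z`, `Z ≠ 0`. -/
theorem no_solution (hp : p.Prime) (hp2 : p ≠ 2) (hζ : IsPrimitiveRoot ζ p)
    (hl : Prime (ζ - 1)) (hres : ∀ x : R, ∃ n : ℤ, (ζ - 1) ∣ x - n)
    (hK : ∀ (u : Rˣ) (n : ℤ), (p : R) ∣ (u : R) - n → ∃ v : Rˣ, u = v ^ p) (Z : R) :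
    Z ≠ 0 → (ζ - 1) ∣ Z → ∀ (x y : R) (e : Rˣ), IsCoprime x y → x ^ p + y ^ p ≠ e * Z ^ p := by
  induction Z using (wellFounded_dvdNotUnit (α := R)).induction with
  | _ Z ih =>
    intro hZ0 hZ x y e hxy h
    obtain ⟨η, hη, h2⟩ := exists_root_sq_dvd hp hp2 hζ hl hres hxy hZ h
    have hη1 : η ^ p = 1 := (mem_nthRootsFinset hp.pos 1).1 hη
    have h' : x ^ p + (η * y) ^ p = e * Z ^ p := by rw [mul_pow, hη1, one_mul]; exact h
    have hηu : IsUnit η := IsUnit.of_pow_eq_one hη1 hp.ne_zero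
    have hxy' : IsCoprime x (η * y) := (isCoprime_mul_unit_left_right hηu _ _).mpr hxy
    obtain ⟨x', y', Z', e', hc, h0, hd, hdn, heq⟩ :=
      descent_step hp hp2 hζ hl hres hK hxy' hZ0 hZ h2 h'
    exact ih Z' hdn h0 hd x' y' e' hc heq

/-- Case II over `ℤ`, from an abstract "Kummer ring". -/
theorem caseII_abstract [CharZero R] (hp : p.Prime) (hp2 : p ≠ 2) (hζ : IsPrimitiveRoot ζ p)
    (hl : Prime (ζ - 1)) (hres : ∀ x : R, ∃ n : ℤ, (ζ - 1) ∣ x - n)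
    (hK : ∀ (u : Rˣ) (n : ℤ), (p : R) ∣ (u : R) - n → ∃ v : Rˣ, u = v ^ p)
    {x y z : ℤ} (hxy : IsCoprime x y) (hz : (p : ℤ) ∣ z) (hz0 : z ≠ 0) :
    x ^ p + y ^ p ≠ z ^ p := by
  intro h
  have hz' : (ζ - 1) ∣ (z : R) := by
    refine (lam_dvd_prime hp hζ).trans ?_
    exact_mod_cast (Int.cast_dvd_cast (α := R) _ _ hz)
  refine no_solution hp hp2 hζ hl hres hK (z : R) (by exact_mod_cast hz0) hz' x y 1
    hxy.intCast ?_
  rw [Units.val_one, one_mul]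
  exact_mod_cast congrArg (Int.cast : ℤ → R) h

end Abstract

section NumberField

open NumberField

/-- Every element of `𝓞 K` is congruent to an integer modulo `ζ - 1`. -/
theorem exists_int_lam_dvd_sub {p : ℕ} [NeZero p] {K : Type*} [Field K] [CharZero K]
    [IsCyclotomicExtension {p} ℚ K] {ζ : K} (hζ : IsPrimitiveRoot ζ p) (x : 𝓞 K) :
    ∃ n : ℤ, (hζ.toInteger - 1) ∣ x - n := by
  have hx : x ∈ Algebra.adjoin ℤ {hζ.toInteger} := by
    rw [IsCyclotomicExtension.Rat.adjoin_singleton_eq_top hζ]; trivial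
  induction hx using Algebra.adjoin_induction with
  | mem y hy =>
    rw [Set.mem_singleton_iff] at hy
    exact ⟨1, by simp [hy]⟩
  | algebraMap r => exact ⟨r, by simp⟩
  | add a b _ _ ha hb =>
    obtain ⟨m, hm⟩ := ha
    obtain ⟨n, hn⟩ := hb
    refine ⟨m + n, ?_⟩
    have : a + b - ((m + n : ℤ) : 𝓞 K) = (a - m) + (b - n) := by push_cast; ring
    rw [this]
    exact dvd_add hm hn
  | mul a b _ _ ha hb =>
    obtain ⟨m, hm⟩ := ha
    obtain ⟨n, hn⟩ := hb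
    refine ⟨m * n, ?_⟩
    have : a * b - ((m * n : ℤ) : 𝓞 K) = (a - m) * b + m * (b - n) := by push_cast; ring
    rw [this]
    exact dvd_add (hm.mul_right _) (hn.mul_left _)

/-- **Case II** of Fermat's Last Theorem for a prime `p` such that `𝓞 ℚ(ζ_p)` is a PID and
Kummer's lemma holds. -/
theorem caseII {p : ℕ} [Fact p.Prime] (hp2 : p ≠ 2) (K : Type*) [Field K] [NumberField K]
    [IsCyclotomicExtension {p} ℚ K] [IsPrincipalIdealRing (𝓞 K)]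
    (hK : ∀ (u : (𝓞 K)ˣ) (n : ℤ), (p : 𝓞 K) ∣ (u : 𝓞 K) - n → ∃ v : (𝓞 K)ˣ, u = v ^ p)
    {x y z : ℤ} (hxy : IsCoprime x y) (hz : (p : ℤ) ∣ z) (hz0 : z ≠ 0) :
    x ^ p + y ^ p ≠ z ^ p := by
  have hp : p.Prime := Fact.out
  have hζ := IsCyclotomicExtension.zeta_spec p ℚ K
  exact caseII_abstract (R := 𝓞 K) hp hp2 hζ.toInteger_isPrimitiveRoot hζ.zeta_sub_one_prime'
    (exists_int_lam_dvd_sub hζ) hK hxy hz hz0

end NumberField

end Fermat.Agent.S11
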