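/-
Glue: a Frey package with exponent `p` is contradictory as soon as both cases of
Fermat's Last Theorem are known for `p`.
-/
import Mathlib
import Fermat.Prelude.Def_FLTPrelim_FreyPackage

set_option autoImplicit false

namespace Fermat.Agent.S11

theorem isCoprime_of_gcd_eq_one {a b : ℤ} (h : gcd a b = 1) : IsCoprime a b := by
  rw [← gcd_isUnit_iff, h]
  exact isUnit_one

/-- A Frey package is contradictory once case I and case II of FLT hold for its exponent. -/
theorem freyPackage_false (P : FreyPackage)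
    (hI : ∀ {a b c : ℤ}, IsCoprime a b → ¬ (P.p : ℤ) ∣ a * b * c →
      a ^ P.p + b ^ P.p ≠ c ^ P.p)
    (hII : ∀ {x y z : ℤ}, IsCoprime x y → (P.p : ℤ) ∣ z → z ≠ 0 →
      x ^ P.p + y ^ P.p ≠ z ^ P.p) : False := by
  have hab : IsCoprime P.a P.b := isCoprime_of_gcd_eq_one P.hgcdab
  have hac : IsCoprime P.a P.c := isCoprime_of_gcd_eq_one P.hgcdac
  have hbc : IsCoprime P.b P.c := isCoprime_of_gcd_eq_one P.hgcdbc
  have hodd : Odd P.p := P.hp_odd
  have hpp : Prime (P.p : ℤ) := Nat.prime_iff_prime_int.mp P.pp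
  by_cases h : (P.p : ℤ) ∣ P.a * P.b * P.c
  · rcases hpp.dvd_or_dvd h with h | h
    · rcases hpp.dvd_or_dvd h with h | h
      · -- `p ∣ a`
        refine hII (x := P.c) (y := -P.b) hbc.symm.neg_right h P.ha0 ?_
        rw [hodd.neg_pow, ← P.hFLT]; ring
      · -- `p ∣ b`
        refine hII (x := P.c) (y := -P.a) hac.symm.neg_right h P.hb0 ?_
        rw [hodd.neg_pow, ← P.hFLT]; ring
    · exact hII hab h P.hc0 P.hFLT
  · exact hI hab h P.hFLT

end Fermat.Agent.S11
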