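/-
No Frey package with exponent `p`, given case I, principality of `𝓞 ℚ(ζ_p)` and Kummer's lemma.
-/
import Fermat.Agent.S11.CaseII
import Fermat.Agent.S11.Glue

set_option autoImplicit false

namespace Fermat.Agent.S11

open NumberField

theorem no_freyPackage_of (p : ℕ) [Fact p.Prime] (hp2 : p ≠ 2)
    (K : Type*) [Field K] [NumberField K] [IsCyclotomicExtension {p} ℚ K]
    (hI : ∀ {a b c : ℤ}, IsCoprime a b → ¬ ((p : ℕ) : ℤ) ∣ a * b * c → a ^ p + b ^ p ≠ c ^ p)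
    (hpid : IsPrincipalIdealRing (𝓞 K))
    (hK : ∀ (u : (𝓞 K)ˣ) (n : ℤ), (p : 𝓞 K) ∣ (u : 𝓞 K) - n → ∃ v : (𝓞 K)ˣ, u = v ^ p)
    (P : FreyPackage) (hP : P.p = p) : False := by
  refine freyPackage_false P ?_ ?_
  · rw [hP]; exact hI
  · rw [hP]; exact fun hxy hz hz0 => caseII hp2 K hK hxy hz hz0

end Fermat.Agent.S11
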