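import Fermat.Agent.S11.KummerGen

set_option autoImplicit false

namespace Fermat.Agent.S11

open NumberField Polynomial

section Coeff

variable {p : ℕ} [hp : Fact p.Prime] {K : Type*} [Field K] [NumberField K]
  [IsCyclotomicExtension {p} ℚ K] {ζ : K} (hζ : IsPrimitiveRoot ζ p)

/-- Coefficients w.r.t. `1, ζ, …, ζ^(p-2)` of a multiple of `m` are multiples of `m`. -/
lemma dvd_coeff_of_dvd_sum (c : Fin (p - 1) → ℤ) (m : ℤ)
    (h : (m : 𝓞 K) ∣ ∑ i : Fin (p - 1), (c i : 𝓞 K) * hζ.toInteger ^ (i : ℕ)) :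
    ∀ i, m ∣ c i := by
  classical
  obtain ⟨y, hy⟩ := h
  set pb := hζ.integralPowerBasis with hpb
  have hdim : pb.dim = p - 1 := by
    rw [hpb, hζ.integralPowerBasis_dim, Nat.totient_prime hp.out]
  have hgen : pb.gen = hζ.toInteger := hζ.integralPowerBasis_gen
  obtain ⟨G, hGdeg, hG⟩ := pb.exists_eq_aeval y
  set F : ℤ[X] := ∑ i : Fin (p - 1), C (c i) * X ^ (i : ℕ) with hF
  have hFdeg : F.degree < (p - 1 : ℕ) := degree_sum_fin_lt c
  have hFev : aeval pb.gen F = ∑ i : Fin (p - 1), (c i : 𝓞 K) * hζ.toInteger ^ (i : ℕ) := by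
    rw [hF, map_sum, hgen]
    refine Finset.sum_congr rfl fun i _ => ?_
    simp
  have hH : F - C m * G = 0 := by
    by_contra hne
    have hroot : aeval pb.gen (F - C m * G) = 0 := by
      rw [map_sub, hFev, hy, map_mul, ← hG]
      simp
    have h1 := pb.dim_le_natDegree_of_root hne hroot
    have h2 : (F - C m * G).degree < (p - 1 : ℕ) := by
      refine lt_of_le_of_lt (degree_sub_le _ _) (max_lt hFdeg ?_)
      refine lt_of_le_of_lt ((degree_mul_le _ _).trans (add_le_add degree_C_le le_rfl)) ?_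
      rw [zero_add]
      by_cases hG0 : G = 0
      · rw [hG0, degree_zero]; exact WithBot.bot_lt_coe _
      · rw [degree_eq_natDegree hG0]
        rw [hdim] at hGdeg
        exact_mod_cast hGdeg
    rw [degree_eq_natDegree hne] at h2
    have h3 : (F - C m * G).natDegree < p - 1 := by exact_mod_cast h2
    omega
  intro i
  have hc : F.coeff (i : ℕ) = c i := by
    rw [hF, finsetSum_coeff]
    simp only [coeff_C_mul, coeff_X_pow]
    rw [Finset.sum_eq_single i]
    · simp
    · intro b _ hb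
      have : (i : ℕ) ≠ (b : ℕ) := fun h => hb (Fin.ext h.symm)
      simp [this]
    · intro h; exact absurd (Finset.mem_univ _) h
  refine ⟨G.coeff i, ?_⟩
  rw [← hc, sub_eq_zero.mp hH, coeff_C_mul]

include hζ in
lemma rank_cyclotomic (hp2 : p ≠ 2) : Units.rank K = (p - 1) / 2 - 1 := by
  have h2 : 2 < p := lt_of_le_of_ne hp.out.two_le (Ne.symm hp2)
  rw [Units.rank, InfinitePlace.card_eq_nrRealPlaces_add_nrComplexPlaces,
    IsCyclotomicExtension.Rat.nrRealPlaces_eq_zero (n := p) K h2,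
    IsCyclotomicExtension.Rat.nrComplexPlaces_eq_totient_div_two p K, Nat.totient_prime hp.out,
    zero_add]

variable {T : Type*} [CommRing T] (π : 𝓞 K →+* T) (hπ : π (p : 𝓞 K) = 0)

lemma dd_pow (x : 𝓞 K) (n : ℕ) :
    dd hζ π hπ (x ^ n) = n * π x ^ (n - 1) * dd hζ π hπ x := by
  induction n with
  | zero => simp [dd_one]
  | succ n ih =>
    rw [pow_succ, dd_mul, ih, map_pow]
    rcases n with _ | n
    · simp
    · simp only [Nat.add_sub_cancel]
      push_cast
      ring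

lemma dd_sum {ι : Type*} (s : Finset ι) (f : ι → 𝓞 K) :
    dd hζ π hπ (∑ i ∈ s, f i) = ∑ i ∈ s, dd hζ π hπ (f i) := by
  classical
  induction s using Finset.induction_on with
  | empty => simpa using dd_intCast hζ π hπ 0
  | insert a s ha ih => rw [Finset.sum_insert ha, Finset.sum_insert ha, dd_add, ih]

/-- the cyclotomic unit `1 + ζ + … + ζ^(a-1)`. -/
noncomputable def cycUnit (a : ℕ) (ha : a.Coprime p) : (𝓞 K)ˣ :=
  (hζ.toInteger_isPrimitiveRoot.geom_sum_isUnit hp.out.two_le ha).unit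

lemma coe_cycUnit (a : ℕ) (ha : a.Coprime p) :
    ((cycUnit hζ a ha : (𝓞 K)ˣ) : 𝓞 K) = ∑ i ∈ Finset.range a, hζ.toInteger ^ i := rfl

/-- `d (1 + ζ + … + ζ^(a-1))` is the image of an explicit element. -/
lemma dd_cycUnit (a : ℕ) (ha : a.Coprime p) :
    dd hζ π hπ ((cycUnit hζ a ha : (𝓞 K)ˣ) : 𝓞 K)
      = π (∑ i ∈ Finset.range a, (i : 𝓞 K) * hζ.toInteger ^ (i - 1) * (hζ.toInteger - 1)) := by
  rw [coe_cycUnit, dd_sum, map_sum]
  refine Finset.sum_congr rfl fun i _ => ?_
  rw [dd_pow, dd_zeta]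
  simp

lemma geom_sum_zeta_eq_zero : ∑ i ∈ Finset.range p, hζ.toInteger ^ i = 0 :=
  hζ.toInteger_isPrimitiveRoot.geom_sum_eq_zero hp.out.one_lt

end Coeff

end Fermat.Agent.S11
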