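import Mathlib

set_option autoImplicit false

namespace Fermat.Agent.S11

open NumberField Polynomial

section Deriv

variable {p : ℕ} [hp : Fact p.Prime] {K : Type*} [Field K] [NumberField K]
  [IsCyclotomicExtension {p} ℚ K] {ζ : K} (hζ : IsPrimitiveRoot ζ p)
  {T : Type*} [CommRing T] (π : 𝓞 K →+* T)

lemma minpoly_toInteger : minpoly ℤ hζ.toInteger = cyclotomic p ℤ := by
  rw [cyclotomic_eq_minpoly hζ hp.out.pos, ← RingOfIntegers.minpoly_coe]
  rfl

lemma aeval_toInteger_cyclotomic : aeval hζ.toInteger (cyclotomic p ℤ) = 0 := by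
  rw [← minpoly_toInteger hζ]
  exact minpoly.aeval _ _

lemma aeval_derivative_cyclotomic :
    aeval hζ.toInteger (derivative (cyclotomic p ℤ)) * (hζ.toInteger - 1)
      = (p : 𝓞 K) * hζ.toInteger ^ (p - 1) := by
  have h := congrArg (fun f => aeval hζ.toInteger (derivative f))
    (cyclotomic_prime_mul_X_sub_one ℤ p)
  simp only [derivative_mul, derivative_X, derivative_one, sub_zero, mul_one,
    derivative_X_pow, map_add, map_mul, map_sub, aeval_X, map_one, map_pow,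
    aeval_toInteger_cyclotomic hζ, add_zero] at h
  simpa using h

/-- The point of `T[ε]` to which `ζ` is sent. -/
noncomputable def psiPt : DualNumber T :=
  TrivSqZeroExt.inl (π hζ.toInteger) + TrivSqZeroExt.inr (π hζ.toInteger - 1)

lemma aeval_psiPt (hπ : π (p : 𝓞 K) = 0) :
    aeval (psiPt hζ π) (minpoly ℤ hζ.integralPowerBasis.gen) = 0 := by
  rw [hζ.integralPowerBasis_gen, minpoly_toInteger hζ, psiPt,
    aeval_add_of_sq_eq_zero _ _ _ (by rw [sq, TrivSqZeroExt.inr_mul_inr])]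
  set f : 𝓞 K →ₐ[ℤ] DualNumber T := ((TrivSqZeroExt.inlHom T T).comp π).toIntAlgHom with hf
  have hfx : (TrivSqZeroExt.inl (π hζ.toInteger) : DualNumber T) = f hζ.toInteger := rfl
  rw [hfx, aeval_algHom_apply, aeval_algHom_apply, aeval_toInteger_cyclotomic hζ, map_zero,
    zero_add]
  have h2 : f (aeval hζ.toInteger (derivative (cyclotomic p ℤ)))
      = TrivSqZeroExt.inl (π (aeval hζ.toInteger (derivative (cyclotomic p ℤ)))) := rfl
  rw [h2, TrivSqZeroExt.inl_mul_inr, smul_eq_mul]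
  have h3 := congrArg π (aeval_derivative_cyclotomic hζ)
  rw [map_mul, map_mul, hπ, zero_mul, map_sub, map_one] at h3
  rw [h3, TrivSqZeroExt.inr_zero]

/-- The ring hom `x ↦ π x + d x ε`. -/
noncomputable def psi (hπ : π (p : 𝓞 K) = 0) : 𝓞 K →ₐ[ℤ] DualNumber T :=
  hζ.integralPowerBasis.lift (psiPt hζ π) (aeval_psiPt hζ π hπ)

lemma psi_zeta (hπ : π (p : 𝓞 K) = 0) : psi hζ π hπ hζ.toInteger = psiPt hζ π := by
  have := hζ.integralPowerBasis.lift_gen (psiPt hζ π) (aeval_psiPt hζ π hπ)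
  rwa [hζ.integralPowerBasis_gen] at this

lemma fst_psi (hπ : π (p : 𝓞 K) = 0) (x : 𝓞 K) : (psi hζ π hπ x).fst = π x := by
  have : ((TrivSqZeroExt.fstHom ℤ T T).comp (psi hζ π hπ)) = π.toIntAlgHom := by
    apply hζ.integralPowerBasis.algHom_ext
    rw [hζ.integralPowerBasis_gen]
    simp [psi_zeta, psiPt]
  exact congrArg (fun f => f x) this

/-- The derivation `d : 𝓞 K → T` with `d ζ = π ζ - 1`. -/
noncomputable def dd (hπ : π (p : 𝓞 K) = 0) (x : 𝓞 K) : T := (psi hζ π hπ x).snd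

variable (hπ : π (p : 𝓞 K) = 0)

lemma dd_zeta : dd hζ π hπ hζ.toInteger = π hζ.toInteger - 1 := by
  simp [dd, psi_zeta, psiPt]

lemma dd_add (x y : 𝓞 K) : dd hζ π hπ (x + y) = dd hζ π hπ x + dd hζ π hπ y := by
  simp [dd]

lemma dd_mul (x y : 𝓞 K) :
    dd hζ π hπ (x * y) = π x * dd hζ π hπ y + π y * dd hζ π hπ x := by
  simp [dd, fst_psi, mul_comm]

lemma dd_intCast (n : ℤ) : dd hζ π hπ (n : 𝓞 K) = 0 := by
  simp [dd]

lemma dd_one : dd hζ π hπ (1 : 𝓞 K) = 0 := by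
  simp [dd]

lemma dd_natCast (n : ℕ) : dd hζ π hπ (n : 𝓞 K) = 0 := by
  simp [dd]

end Deriv

end Fermat.Agent.S11
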