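import Fermat.Agent.S11.Coeff

set_option autoImplicit false

namespace Fermat.Agent.S11

open NumberField Polynomial

instance fact_prime_eleven : Fact (Nat.Prime 11) := ⟨by norm_num⟩

lemma clear_denoms_eleven {T : Type*} [CommRing T] (L0 L1 L2 L3 L4 Z E2 E3 E4 E5 dZ d2 d3 d4 d5
    j n0 n1 n2 n3 : T) (e0 : L0 * Z = dZ) (e1 : L1 * E2 = d2) (e2 : L2 * E3 = d3)
    (e3 : L3 * E4 = d4) (e4 : L4 * E5 = d5)
    (hrel : j * L0 + (n0 * L1 + n1 * L2 + n2 * L3 + n3 * L4) = 0) :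
    j * dZ * (E2 * E3 * E4 * E5) + n0 * d2 * (Z * E3 * E4 * E5) + n1 * d3 * (Z * E2 * E4 * E5)
      + n2 * d4 * (Z * E2 * E3 * E5) + n3 * d5 * (Z * E2 * E3 * E4) = 0 := by
  subst e0 e1 e2 e3 e4
  linear_combination (Z * E2 * E3 * E4 * E5) * hrel

lemma solve_eleven (j a b c d : ℤ)
    (h0 : (11 : ℤ) ∣ (-3) * j + (-1) * a + (-3) * b + (-5) * c + (-7) * d)
    (h1 : (11 : ℤ) ∣ (-6) * j + (-3) * a + (-6) * b + (-9) * c + (-12) * d)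
    (h2 : (11 : ℤ) ∣ (-8) * j + (-4) * a + (-9) * b + (-12) * c + (-15) * d)
    (h3 : (11 : ℤ) ∣ (-9) * j + (-5) * a + (-11) * b + (-17) * c + (-20) * d)
    (h4 : (11 : ℤ) ∣ (-8) * j + (-5) * a + (-11) * b + (-19) * c + (-26) * d) :
    (11 : ℤ) ∣ j ∧ (11 : ℤ) ∣ a ∧ (11 : ℤ) ∣ b ∧ (11 : ℤ) ∣ c ∧ (11 : ℤ) ∣ d := by
  obtain ⟨t0, ht0⟩ := h0
  obtain ⟨t1, ht1⟩ := h1
  obtain ⟨t2, ht2⟩ := h2
  obtain ⟨t3, ht3⟩ := h3
  obtain ⟨t4, ht4⟩ := h4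
  refine ⟨⟨5 * t0 + 2 * t1 + (-3) * t2 + 1 * t3 + (-3) * t4
      - (1 * j + 1 * a + 2 * b + 3 * c + 4 * d), ?_⟩,
    ⟨(-1) * t0 + 3 * t1 + 2 * t2 + 5 * t3 + (-4) * t4
      - ((-4) * j + (-2) * a + (-4) * b + (-5) * c + (-5) * d), ?_⟩,
    ⟨0 * t0 + 2 * t1 + 1 * t2 + (-4) * t3 + 2 * t4
      - (0 * j + 0 * a + 0 * b + 0 * c + (-1) * d), ?_⟩,
    ⟨(-3) * t0 + (-1) * t1 + (-2) * t2 + 2 * t3 + 3 * t4
      - ((-1) * j + (-1) * a + (-2) * b + (-4) * c + (-5) * d), ?_⟩,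
    ⟨0 * t0 + (-3) * t1 + 2 * t2 + (-4) * t3 + 2 * t4
      - (2 * j + 1 * a + 2 * b + 3 * c + 3 * d), ?_⟩⟩
  · linear_combination 5 * ht0 + 2 * ht1 + (-3) * ht2 + 1 * ht3 + (-3) * ht4
  · linear_combination (-1) * ht0 + 3 * ht1 + 2 * ht2 + 5 * ht3 + (-4) * ht4
  · linear_combination 0 * ht0 + 2 * ht1 + 1 * ht2 + (-4) * ht3 + 2 * ht4
  · linear_combination (-3) * ht0 + (-1) * ht1 + (-2) * ht2 + 2 * ht3 + 3 * ht4
  · linear_combination 0 * ht0 + (-3) * ht1 + 2 * ht2 + (-4) * ht3 + 2 * ht4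

section

variable {K : Type*} [Field K] [NumberField K] [IsCyclotomicExtension {11} ℚ K] {ζ : K}
  (hζ : IsPrimitiveRoot ζ 11)

lemma indep_eleven_aux (j : ℤ) (n : Fin 4 → ℤ)
    (h : (11 : 𝓞 K) ∣ (j : 𝓞 K) * (hζ.toInteger - 1) *
        ((∑ i ∈ Finset.range 2, hζ.toInteger ^ i) * (∑ i ∈ Finset.range 3, hζ.toInteger ^ i) *
          (∑ i ∈ Finset.range 4, hζ.toInteger ^ i) * (∑ i ∈ Finset.range 5, hζ.toInteger ^ i))
      + (n 0 : 𝓞 K) *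
          (∑ i ∈ Finset.range 2, (i : 𝓞 K) * hζ.toInteger ^ (i - 1) * (hζ.toInteger - 1)) *
        (hζ.toInteger * (∑ i ∈ Finset.range 3, hζ.toInteger ^ i) *
          (∑ i ∈ Finset.range 4, hζ.toInteger ^ i) * (∑ i ∈ Finset.range 5, hζ.toInteger ^ i))
      + (n 1 : 𝓞 K) *
          (∑ i ∈ Finset.range 3, (i : 𝓞 K) * hζ.toInteger ^ (i - 1) * (hζ.toInteger - 1)) *
        (hζ.toInteger * (∑ i ∈ Finset.range 2, hζ.toInteger ^ i) *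
          (∑ i ∈ Finset.range 4, hζ.toInteger ^ i) * (∑ i ∈ Finset.range 5, hζ.toInteger ^ i))
      + (n 2 : 𝓞 K) *
          (∑ i ∈ Finset.range 4, (i : 𝓞 K) * hζ.toInteger ^ (i - 1) * (hζ.toInteger - 1)) *
        (hζ.toInteger * (∑ i ∈ Finset.range 2, hζ.toInteger ^ i) *
          (∑ i ∈ Finset.range 3, hζ.toInteger ^ i) * (∑ i ∈ Finset.range 5, hζ.toInteger ^ i))
      + (n 3 : 𝓞 K) *
          (∑ i ∈ Finset.range 5, (i : 𝓞 K) * hζ.toInteger ^ (i - 1) * (hζ.toInteger - 1)) *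
        (hζ.toInteger * (∑ i ∈ Finset.range 2, hζ.toInteger ^ i) *
          (∑ i ∈ Finset.range 3, hζ.toInteger ^ i) * (∑ i ∈ Finset.range 4, hζ.toInteger ^ i))) :
    (11 : ℤ) ∣ j ∧ ∀ i, (11 : ℤ) ∣ n i := by
  have hΦ := geom_sum_zeta_eq_zero hζ
  set z := hζ.toInteger with hz
  let c : Fin 10 → ℤ := ![(-3) * j + (-1) * n 0 + (-3) * n 1 + (-5) * n 2 + (-7) * n 3,
    (-6) * j + (-3) * n 0 + (-6) * n 1 + (-9) * n 2 + (-12) * n 3,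
    (-8) * j + (-4) * n 0 + (-9) * n 1 + (-12) * n 2 + (-15) * n 3,
    (-9) * j + (-5) * n 0 + (-11) * n 1 + (-17) * n 2 + (-20) * n 3,
    (-8) * j + (-5) * n 0 + (-11) * n 1 + (-19) * n 2 + (-26) * n 3,
    (-5) * j + (-4) * n 0 + (-10) * n 1 + (-16) * n 2 + (-26) * n 3,
    (-1) * j + (-2) * n 0 + (-6) * n 1 + (-10) * n 2 + (-18) * n 3,
    (2) * j + (0) * n 0 + (-1) * n 1 + (-4) * n 2 + (-6) * n 3,
    (3) * j + (1) * n 0 + (1) * n 1 + (1) * n 2 + (4) * n 3,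
    (2) * j + (1) * n 0 + (1) * n 1 + (3) * n 2 + (5) * n 3]
  have key : ∀ i, (11 : ℤ) ∣ c i := by
    apply dvd_coeff_of_dvd_sum hζ c 11
    rw [← hz]
    obtain ⟨y, hy⟩ := h
    refine ⟨y, ?_⟩
    rw [Int.cast_ofNat, ← hy]
    simp only [Finset.sum_range_succ, Finset.sum_range_zero] at hΦ ⊢
    change ∑ i : Fin 10, (c i : 𝓞 K) * z ^ (i : ℕ) = _
    simp only [Fin.sum_univ_succ, c]
    simp
    linear_combination (-((2) * (j : 𝓞 K) + (1) * n 0 + (3) * n 1 + (5) * n 2 + (7) * n 3)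
      - ((1) * (j : 𝓞 K) + (1) * n 0 + (2) * n 1 + (3) * n 2 + (4) * n 3) * z) * hΦ
  obtain ⟨hj, h0, h1, h2, h3⟩ := solve_eleven j (n 0) (n 1) (n 2) (n 3)
    (key 0) (key 1) (key 2) (key 3) (key 4)
  refine ⟨hj, fun i => ?_⟩
  fin_cases i <;> assumption

include hζ in
theorem kummer_eleven_gen (u : (𝓞 K)ˣ) (n : ℤ) (h : ((11 : ℕ) : 𝓞 K) ∣ (u : 𝓞 K) - n) :
    ∃ v : (𝓞 K)ˣ, u = v ^ 11 := by
  let π : 𝓞 K →+* 𝓞 K ⧸ Ideal.span {((11 : ℕ) : 𝓞 K)} := Ideal.Quotient.mk _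
  have hπ : π ((11 : ℕ) : 𝓞 K) = 0 :=
    Ideal.Quotient.eq_zero_iff_mem.mpr (Ideal.mem_span_singleton_self _)
  refine kummer_of_indep hζ π hπ (by norm_num) (r := 4)
    (by rw [rank_cyclotomic hζ (by norm_num)])
    ![cycUnit hζ 2 (by norm_num), cycUnit hζ 3 (by norm_num), cycUnit hζ 4 (by norm_num),
      cycUnit hζ 5 (by norm_num)] ?_ u n h
  intro j n hrel
  apply indep_eleven_aux hζ j n
  have h11 : (11 : 𝓞 K) = ((11 : ℕ) : 𝓞 K) := by norm_num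
  rw [h11, ← Ideal.mem_span_singleton, ← Ideal.Quotient.eq_zero_iff_mem]
  change π _ = 0
  simp only [Fin.sum_univ_four, zsmul_eq_mul] at hrel
  simp only [map_add, map_mul, map_intCast]
  refine clear_denoms_eleven _ _ _ _ _ _ _ _ _ _ _ _ _ _ _ _ _ _ _ _ ?_ ?_ ?_ ?_ ?_ hrel
  · rw [← coe_zetaUnit hζ, dlog_mul_self, coe_zetaUnit, dd_zeta, map_sub, map_one]
  · rw [← coe_cycUnit hζ 2 (by norm_num), ← dd_cycUnit hζ π hπ 2 (by norm_num)]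
    exact dlog_mul_self hζ π hπ _
  · rw [← coe_cycUnit hζ 3 (by norm_num), ← dd_cycUnit hζ π hπ 3 (by norm_num)]
    exact dlog_mul_self hζ π hπ _
  · rw [← coe_cycUnit hζ 4 (by norm_num), ← dd_cycUnit hζ π hπ 4 (by norm_num)]
    exact dlog_mul_self hζ π hπ _
  · rw [← coe_cycUnit hζ 5 (by norm_num), ← dd_cycUnit hζ π hπ 5 (by norm_num)]
    exact dlog_mul_self hζ π hπ _

end

set_option backward.isDefEq.respectTransparency false in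
theorem kummer_eleven (u : (𝓞 (CyclotomicField 11 ℚ))ˣ) (n : ℤ)
    (h : (11 : 𝓞 (CyclotomicField 11 ℚ)) ∣ (u : 𝓞 (CyclotomicField 11 ℚ)) - n) :
    ∃ v : (𝓞 (CyclotomicField 11 ℚ))ˣ, u = v ^ 11 :=
  kummer_eleven_gen (IsCyclotomicExtension.zeta_spec 11 ℚ (CyclotomicField 11 ℚ)) u n
    (by exact_mod_cast h)

end Fermat.Agent.S11
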