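import Fermat.Agent.S11.Deriv

set_option autoImplicit false

namespace Fermat.Agent.S11

open NumberField Polynomial

section Dlog

variable {p : ℕ} [hp : Fact p.Prime] {K : Type*} [Field K] [NumberField K]
  [IsCyclotomicExtension {p} ℚ K] {ζ : K} (hζ : IsPrimitiveRoot ζ p)
  {T : Type*} [CommRing T] (π : 𝓞 K →+* T) (hπ : π (p : 𝓞 K) = 0)

/-- logarithmic derivative on units. -/
noncomputable def dlog : Additive (𝓞 K)ˣ →+ T where
  toFun u := dd hζ π hπ ((u.toMul : (𝓞 K)ˣ) : 𝓞 K) * π (((u.toMul)⁻¹ : (𝓞 K)ˣ) : 𝓞 K)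
  map_zero' := by simp [dd_one]
  map_add' u v := by
    have hu : π ((u.toMul : (𝓞 K)ˣ) : 𝓞 K) * π (((u.toMul)⁻¹ : (𝓞 K)ˣ) : 𝓞 K) = 1 := by
      rw [← map_mul, Units.mul_inv, map_one]
    have hv : π ((v.toMul : (𝓞 K)ˣ) : 𝓞 K) * π (((v.toMul)⁻¹ : (𝓞 K)ˣ) : 𝓞 K) = 1 := by
      rw [← map_mul, Units.mul_inv, map_one]
    simp only [toMul_add, Units.val_mul, mul_inv, dd_mul, map_mul]
    linear_combination
      (dd hζ π hπ ((v.toMul : (𝓞 K)ˣ) : 𝓞 K) * π (((v.toMul)⁻¹ : (𝓞 K)ˣ) : 𝓞 K)) * hu +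
      (dd hζ π hπ ((u.toMul : (𝓞 K)ˣ) : 𝓞 K) * π (((u.toMul)⁻¹ : (𝓞 K)ˣ) : 𝓞 K)) * hv

lemma dlog_apply (u : (𝓞 K)ˣ) : dlog hζ π hπ (Additive.ofMul u)
    = dd hζ π hπ (u : 𝓞 K) * π ((u⁻¹ : (𝓞 K)ˣ) : 𝓞 K) := rfl

lemma dlog_mul_self (u : (𝓞 K)ˣ) : dlog hζ π hπ (Additive.ofMul u) * π (u : 𝓞 K)
    = dd hζ π hπ (u : 𝓞 K) := by
  have hu : π ((u⁻¹ : (𝓞 K)ˣ) : 𝓞 K) * π (u : 𝓞 K) = 1 := by
    rw [← map_mul, Units.inv_mul, map_one]
  rw [dlog_apply, mul_assoc, hu, mul_one]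

lemma dd_eq_zero_of_dvd {x : 𝓞 K} {n : ℤ} (h : (p : 𝓞 K) ∣ x - n) : dd hζ π hπ x = 0 := by
  obtain ⟨y, hy⟩ := h
  have : x = n + p * y := by rw [← hy]; ring
  rw [this, dd_add, dd_intCast, dd_mul, hπ, dd_natCast]
  simp

lemma dlog_eq_zero_of_dvd {u : (𝓞 K)ˣ} {n : ℤ} (h : (p : 𝓞 K) ∣ (u : 𝓞 K) - n) :
    dlog hζ π hπ (Additive.ofMul u) = 0 := by
  rw [dlog_apply, dd_eq_zero_of_dvd hζ π hπ h, zero_mul]

/-- `ζ` as a unit. -/
noncomputable def zetaUnit : (𝓞 K)ˣ := (hζ.toInteger_isPrimitiveRoot.isUnit hp.out.ne_zero).unit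

lemma coe_zetaUnit : ((zetaUnit hζ : (𝓞 K)ˣ) : 𝓞 K) = hζ.toInteger := rfl

lemma zetaUnit_pow : (zetaUnit hζ) ^ p = 1 := by
  ext
  rw [Units.val_pow_eq_pow_val, coe_zetaUnit, hζ.toInteger_isPrimitiveRoot.pow_eq_one]
  rfl

end Dlog

/-- group theory: a power prime to `p` being a `p`-th power. -/
lemma exists_eq_pow_of_zpow_eq {G : Type*} [CommGroup G] {p : ℕ} (hp : p.Prime) {u t : G} {a : ℤ}
    (ha : ¬ (p : ℤ) ∣ a) (h : u ^ a = t ^ p) : ∃ v : G, u = v ^ p := by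
  have hc : IsCoprime (p : ℤ) a :=
    (Prime.coprime_iff_not_dvd (Nat.prime_iff_prime_int.mp hp)).mpr ha
  obtain ⟨x, y, hxy⟩ := hc
  refine ⟨u ^ x * t ^ y, ?_⟩
  calc u = u ^ (x * p + y * a) := by rw [hxy, zpow_one]
    _ = (u ^ x) ^ p * (u ^ a) ^ y := by
        rw [zpow_add, zpow_mul, zpow_natCast, mul_comm y a, zpow_mul]
    _ = (u ^ x * t ^ y) ^ p := by
        rw [h, mul_pow, ← zpow_natCast (t ^ y) p, ← zpow_mul, ← zpow_natCast t p, ← zpow_mul,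
          mul_comm y]

end Fermat.Agent.S11

namespace Fermat.Agent.S11

open NumberField Polynomial

section Main

variable {p : ℕ} [hp : Fact p.Prime] {K : Type*} [Field K] [NumberField K]
  [IsCyclotomicExtension {p} ℚ K] {ζ : K} (hζ : IsPrimitiveRoot ζ p)
  {T : Type*} [CommRing T] (π : 𝓞 K →+* T) (hπ : π (p : 𝓞 K) = 0)

/-- torsion units are `± ζ ^ s`. -/
lemma exists_sign_mul_zeta_pow (hp2 : p ≠ 2) {w : (𝓞 K)ˣ} (hw : IsOfFinOrder w) :
    ∃ (σ : (𝓞 K)ˣ) (s : ℕ), (σ = 1 ∨ σ = -1) ∧ w = σ * zetaUnit hζ ^ s := by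
  have hodd : Odd p := hp.out.odd_of_ne_two hp2
  have hK : IsOfFinOrder (((w : (𝓞 K)ˣ) : 𝓞 K) : K) :=
    ((algebraMap (𝓞 K) K : 𝓞 K →* K).comp (Units.coeHom (𝓞 K))).isOfFinOrder hw
  obtain ⟨s, -, hs⟩ := IsPrimitiveRoot.exists_pow_or_neg_mul_pow_of_isOfFinOrder hodd hζ hK
  rcases hs with hs | hs
  · refine ⟨1, s, Or.inl rfl, ?_⟩
    ext
    rw [hs]
    simp only [one_mul, Units.val_pow_eq_pow_val, coe_zetaUnit, map_pow]
    rfl
  · refine ⟨-1, s, Or.inr rfl, ?_⟩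
    ext
    rw [hs]
    simp only [Units.val_neg, neg_mul, one_mul,
      Units.val_pow_eq_pow_val, coe_zetaUnit, map_neg, map_pow]
    rfl

theorem kummer_of_indep (hp2 : p ≠ 2) {r : ℕ} (hr : Units.rank K = r) (ε : Fin r → (𝓞 K)ˣ)
    (hind : ∀ (j : ℤ) (n : Fin r → ℤ),
      j • dlog hζ π hπ (Additive.ofMul (zetaUnit hζ))
        + ∑ i, n i • dlog hζ π hπ (Additive.ofMul (ε i)) = 0 →
        (p : ℤ) ∣ j ∧ ∀ i, (p : ℤ) ∣ n i)
    (u : (𝓞 K)ˣ) (n : ℤ) (h : (p : 𝓞 K) ∣ (u : 𝓞 K) - n) : ∃ v : (𝓞 K)ˣ, u = v ^ p := by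
  classical
  have hodd : Odd p := hp.out.odd_of_ne_two hp2
  let v : Fin (r + 1) → Additive (𝓞 K)ˣ :=
    Fin.cons (Additive.ofMul u) (fun i => Additive.ofMul (ε i))
  have hdep : ¬ LinearIndependent ℤ v := by
    intro hli
    have := hli.fintype_card_le_finrank
    rw [Units.finrank_eq, hr, Fintype.card_fin] at this
    omega
  obtain ⟨g, hg, i0, hi0⟩ := Fintype.not_linearIndependent_iff.mp hdep
  obtain ⟨g', hg', hgcd⟩ := Finset.extract_gcd g (Finset.univ_nonempty (α := Fin (r + 1)))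
  set d := Finset.univ.gcd g with hd
  have hd0 : d ≠ 0 := by
    intro h0
    exact hi0 (Finset.gcd_eq_zero_iff.mp h0 i0 (Finset.mem_univ _))
  set w : Additive (𝓞 K)ˣ := ∑ i, g' i • v i with hw
  have hdw : d • w = 0 := by
    rw [hw, ← Finset.sum_zsmul, ← hg]
    refine Finset.sum_congr rfl fun i _ => ?_
    rw [← mul_zsmul, ← hg' i (Finset.mem_univ _)]
  have hfin : IsOfFinOrder (w.toMul) :=
    isOfFinOrder_iff_zpow_eq_one.mpr ⟨d, hd0, by rw [← toMul_zsmul, hdw]; rfl⟩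
  obtain ⟨σ, s, hσ, hws⟩ := exists_sign_mul_zeta_pow hζ hp2 hfin
  have hws' : w = Additive.ofMul σ + s • Additive.ofMul (zetaUnit hζ) := by
    apply Additive.toMul.injective
    rw [hws]; rfl
  have hσ0 : dlog hζ π hπ (Additive.ofMul σ) = 0 := by
    rcases hσ with rfl | rfl
    · exact dlog_eq_zero_of_dvd hζ π hπ (n := 1) (by simp)
    · exact dlog_eq_zero_of_dvd hζ π hπ (n := -1) (by simp)
  have hσp : p • Additive.ofMul σ = Additive.ofMul σ := by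
    rcases hσ with rfl | rfl
    · simp
    · rw [← ofMul_pow, hodd.neg_one_pow]
  have hw2 : w = g' 0 • Additive.ofMul u + ∑ i : Fin r, g' i.succ • Additive.ofMul (ε i) := by
    rw [hw, Fin.sum_univ_succ]
    simp [v]
  have hu0 : dlog hζ π hπ (Additive.ofMul u) = 0 := dlog_eq_zero_of_dvd hζ π hπ h
  have hrel : (-(s : ℤ)) • dlog hζ π hπ (Additive.ofMul (zetaUnit hζ))
        + ∑ i, g' (Fin.succ i) • dlog hζ π hπ (Additive.ofMul (ε i)) = 0 := by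
    have h1 := congrArg (dlog hζ π hπ) hws'
    rw [hw2] at h1
    simp only [map_add, map_sum, map_zsmul, map_nsmul, hu0, hσ0, smul_zero, zero_add] at h1
    rw [h1, neg_smul, natCast_zsmul, neg_add_cancel]
  obtain ⟨hs, hk⟩ := hind _ _ hrel
  have hg0 : ¬ (p : ℤ) ∣ g' 0 := by
    intro h0
    have : (p : ℤ) ∣ Finset.univ.gcd g' := by
      refine Finset.dvd_gcd fun i _ => ?_
      refine Fin.cases h0 (fun i => hk i) i
    rw [hgcd] at this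
    have := Int.eq_one_of_dvd_one (by positivity) this
    have := hp.out.one_lt
    omega
  choose k hk using hk
  have hs' : s • Additive.ofMul (zetaUnit hζ) = 0 := by
    rw [dvd_neg, Int.natCast_dvd_natCast] at hs
    obtain ⟨m, rfl⟩ := hs
    rw [← ofMul_pow, pow_mul, zetaUnit_pow, one_pow]
    rfl
  have key : g' 0 • Additive.ofMul u
      = p • (Additive.ofMul σ - ∑ i : Fin r, k i • Additive.ofMul (ε i)) := by
    have h1 : ∑ i : Fin r, g' i.succ • Additive.ofMul (ε i)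
        = p • ∑ i : Fin r, k i • Additive.ofMul (ε i) := by
      rw [← Finset.sum_nsmul]
      refine Finset.sum_congr rfl fun i _ => ?_
      rw [hk i, mul_zsmul, natCast_zsmul]
    rw [nsmul_sub, hσp, ← h1, eq_sub_iff_add_eq, ← hw2, hws', hs', add_zero]
  refine exists_eq_pow_of_zpow_eq hp.out hg0
    (t := (Additive.ofMul σ - ∑ i : Fin r, k i • Additive.ofMul (ε i)).toMul) ?_
  exact congrArg Additive.toMul key

end Main

end Fermat.Agent.S11
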